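import Mathlib
import Fermat.Agent.MU.Lib.GenusEq.Props
import Fermat.Agent.MU.Lib.GaussVal.Degree
import Fermat.Agent.MU.Lib.GoodRed.ModularBranch
import Fermat.Agent.MU.Lib.GaussInt.ModularInst
import Fermat.Agent.MU.Lib.Deuring.FundIneq
import Fermat.Agent.MU.S24.Comb

section MergeWrap_Lib_GenusEq_Inputs -- from Lib/GenusEq/Inputs.lean

set_option autoImplicit false
set_option linter.style.haveILetI false
set_option linter.unusedSectionVars false
set_option synthInstance.maxHeartbeats 400000

/-!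
# GenusEq (helper93): the inputs that are already on main, in the shapes of `Props.lean`

* `degreeModL M : DegreeModL M`       (helper66 `GaussVal.finrank_fullC_eq_finrank_fullL`, helper19 `finrank_jBar`)
* `genusLe M : GenusLe M`             (helper80 `Deuring.genusFF_le`, helper5 `modularValSetup`)
(`cuspCountBar`, `unramBar` are in `CharZero.lean`, helper20.)
-/

noncomputable section

open AlgebraicCurve IntermediateField ModularCurve

namespace Fermat.Agent.GenusEq

open Fermat.Agent.RR Fermat.Agent.RRMod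

/-- `[F_M : ℚ̄(j)] = ψ(M)`. -/
theorem finrank_jBar_eq_psi (M : ℕ) [NeZero M] :
    Module.finrank (AlgebraicClosure ℚ)⟮Fermat.Agent.S24.jBar M⟯ ↥(modularFunctionFieldBar M)
      = dedekindPsi M := by
  rw [Fermat.Agent.GoodRedBranch.finrank_jBar M, Fermat.Agent.S24.index_Gamma0 M]

theorem degreeModL (M : ℕ) [NeZero M] : DegreeModL M := by
  intro ℓ hℓ hℓM A hA
  haveI : Fact ℓ.Prime := ⟨hℓ⟩
  haveI : IsAlgClosed (IsLocalRing.ResidueField A) :=
    Fermat.Agent.FrobTrace.isAlgClosed_residueField A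
  rw [Fermat.Agent.GaussVal.finrank_fullC_eq_finrank_fullL A ℓ M hA hℓM
    (jC (IsLocalRing.ResidueField A) M) rfl (Fermat.Agent.S24.jBar M)
    (Fermat.Agent.S24.coe_jBar_eq_jqModC M)]
  exact finrank_jBar_eq_psi M

theorem genusLe (M : ℕ) [NeZero M] : GenusLe M := by
  intro ℓ hℓ hℓM A hA
  haveI := Fermat.Agent.GaussInt.infinite_residue A
  exact Fermat.Agent.Deuring.genusFF_le (Fermat.Agent.GaussInt.modularValSetup A ℓ M hℓ hA hℓM)
    (Fermat.Agent.GaussInt.hasLattice_modularValSetup A ℓ M hℓ hA hℓM)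

end Fermat.Agent.GenusEq
end
end MergeWrap_Lib_GenusEq_Inputs
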