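import Mathlib
import Fermat.Agent.MU.Lib.GenusEq.Props
import Fermat.Agent.MU.Lib.GenusEq.GenusFM
import Fermat.Agent.Lib.FrobTrace.Residue
import Fermat.Agent.MU.Lib.GenusEq.Inputs
import Fermat.Agent.MU.Lib.RR.Hurwitz.FibreDeg
import Fermat.Agent.MU.Lib.RR.Hurwitz.Fibres
import Fermat.Agent.MU.Lib.GoodRed.Small.PolyOrd
import Fermat.Agent.MU.Lib.GoodRed.ModularBranch
import Fermat.Agent.MU.S24.Comb
import Fermat.Agent.MU.Lib.GoodRed.Final
import Fermat.Agent.MU.Lib.GoodRed.ModularData
import Fermat.Agent.MU.Lib.GaussVal.Degree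

section MergeWrap_Lib_GenusEq_Core -- from Lib/GenusEq/Core.lean

set_option autoImplicit false
set_option linter.style.haveILetI false
set_option linter.unusedSectionVars false

/-!
# GenusEq, WP-E (helper93): the abstract core of the cusps-only Hurwitz argument

`B ⊆ F` function fields over an algebraically closed field `k` of ANY characteristic, `B` of genus `0`,
`y ∈ B` transcendental (`y = j̄`), `F / k(y)` finite separable.  Then, with `n' = [F : B]`,

  `n' * #{poles of y on B} - #{poles of y on F} ≤ 2 g(F) - 2 + 2 n'`    and    `[F : k(y)] = [B : k(y)] * n'`.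

Inputs: `RationalOfGenusZero` (WP-B), `PoleCountFibres` (WP-C), helper40's `hurwitz_lower_fibres`.
-/

noncomputable section

open AlgebraicCurve IntermediateField

namespace Fermat.Agent.GenusEq

open Fermat.Agent.RR Fermat.Agent.RRHur

variable {k B F : Type} [Field k] [Field B] [Field F] [Algebra k B] [Algebra k F]

/-- a pole in the sense of `ord`. -/
theorem exists_ord_neg (h : IsRRField k B) {y : B} (hy : Transcendental k y) :
    ∃ v : Place k B, v.ord y < 0 := by
  obtain ⟨v, hv⟩ := exists_pole h hy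
  exact ⟨v, (one_lt_adicValuation_iff v).mp hv⟩

theorem map_adjoin_simple (ι : B →ₐ[k] F) (x : B) :
    (k⟮x⟯).map ι = k⟮ι x⟯ := by
  rw [adjoin_map, Set.image_singleton]

theorem transcendental_map (ι : B →ₐ[k] F) {x : B} (hx : Transcendental k x) :
    Transcendental k (ι x) := by
  intro h
  exact hx ((isAlgebraic_algHom_iff ι ι.toRingHom.injective).mp h)

/-- the degrees in the tower `k(ι y) ⊆ k(ι x) = ι B ⊆ F`. -/
theorem finrank_tower (ι : B →ₐ[k] F) (x y : B) (hx : k⟮x⟯ = ⊤) :
    Module.finrank k⟮y⟯ B * Module.finrank k⟮ι x⟯ F = Module.finrank k⟮ι y⟯ F := by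
  have hle : k⟮ι y⟯ ≤ k⟮ι x⟯ := by
    rw [adjoin_simple_le_iff, ← map_adjoin_simple ι x, hx]
    exact ⟨y, mem_top, rfl⟩
  rw [← relfinrank_mul_finrank_top hle, ← map_adjoin_simple ι y, ← map_adjoin_simple ι x,
    relfinrank_map_map, hx, relfinrank_top_right]

theorem adjoin_le_of_top (ι : B →ₐ[k] F) (x y : B) (hx : k⟮x⟯ = ⊤) : k⟮ι y⟯ ≤ k⟮ι x⟯ := by
  rw [adjoin_simple_le_iff, ← map_adjoin_simple ι x, hx]
  exact ⟨y, mem_top, rfl⟩

/-- **the abstract core**. -/
theorem hurwitz_core [IsAlgClosed k] (hRat : RationalOfGenusZero) (hPF : PoleCountFibres)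
    (hB : IsRRField k B) (hF : IsRRField k F) (hgB : genusFF k B = 0)
    (ι : B →ₐ[k] F) (y : B) (hy : Transcendental k y)
    [FiniteDimensional k⟮ι y⟯ F] [Algebra.IsSeparable k⟮ι y⟯ F] :
    ∃ n' : ℕ, Module.finrank k⟮y⟯ B * n' = Module.finrank k⟮ι y⟯ F ∧
      (n' : ℤ) * poleCount k B y - poleCount k F (ι y) ≤
        2 * (genusFF k F : ℤ) - 2 + 2 * (n' : ℤ) := by
  obtain ⟨P, hP⟩ := exists_ord_neg hB hy
  obtain ⟨x, hxtr, hxP, hxQ, hxtop⟩ := hRat k B hB hgB P
  have hxy : ∀ Q : Place k B, Q.ord x < 0 → Q.ord y < 0 := by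
    intro Q hQ
    by_cases hQP : Q = P
    · rw [hQP]; exact hP
    · exact absurd (hxQ Q hQP) (not_le.mpr hQ)
  have htow := finrank_tower ι x y hxtop
  have hle := adjoin_le_of_top ι x y hxtop
  have hpos : 0 < Module.finrank k⟮ι y⟯ F := Module.finrank_pos
  have hn'pos : 0 < Module.finrank k⟮ι x⟯ F := by
    rcases Nat.eq_zero_or_pos (Module.finrank k⟮ι x⟯ F) with h0 | h0
    · rw [h0, mul_zero] at htow
      omega
    · exact h0
  haveI : FiniteDimensional k⟮ι x⟯ F := Module.finite_of_finrank_pos hn'pos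
  letI : Algebra k⟮ι y⟯ k⟮ι x⟯ := (IntermediateField.inclusion hle).toRingHom.toAlgebra
  haveI : IsScalarTower k⟮ι y⟯ k⟮ι x⟯ F := IsScalarTower.of_algebraMap_eq (fun _ => rfl)
  haveI : Algebra.IsSeparable k⟮ι x⟯ F :=
    Algebra.isSeparable_tower_top_of_isSeparable k⟮ι y⟯ k⟮ι x⟯ F
  obtain ⟨S, hScard, hSsum⟩ := hPF k B F hB hF ι x y hxtr hxtop hxy inferInstance
  have hH := hurwitz_lower_fibres hF (transcendental_map ι hxtr) S
  refine ⟨Module.finrank k⟮ι x⟯ F, htow, ?_⟩
  have e1 : ∑ c ∈ S, ((Module.finrank k⟮ι x⟯ F : ℤ) -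
        (Nat.card {v : Place k F // 0 < v.ord (ι x - algebraMap k F c)} : ℤ)) =
      (S.card : ℤ) * (Module.finrank k⟮ι x⟯ F : ℤ) -
        ∑ c ∈ S, (zeroCount k F (ι x - algebraMap k F c) : ℤ) := by
    rw [Finset.sum_sub_distrib, Finset.sum_const, nsmul_eq_mul]
    rfl
  have e2 : (poleCount k F (ι y) : ℤ) =
      ∑ c ∈ S, (zeroCount k F (ι x - algebraMap k F c) : ℤ) + (poleCount k F (ι x) : ℤ) := by
    rw [← hSsum]
    push_cast
    rfl
  have e3 : (poleCount k B y : ℤ) = (S.card : ℤ) + 1 := by
    rw [← hScard]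
    push_cast
    rfl
  have e4 : (Nat.card {v : Place k F // v.ord (ι x) < 0} : ℤ) = (poleCount k F (ι x) : ℤ) := rfl
  rw [e1, e4] at hH
  rw [e2, e3]
  linarith

end Fermat.Agent.GenusEq
end
end MergeWrap_Lib_GenusEq_Core

section MergeWrap_Lib_GenusEq_Assembly -- from Lib/GenusEq/Assembly.lean

set_option autoImplicit false
set_option linter.style.haveILetI false
set_option linter.unusedSectionVars false
set_option synthInstance.maxHeartbeats 400000

/-!
# GenusEq, WP-E (helper93): genus equality at the auxiliary levels `M`, `4 ∣ M` or `9 ∣ M`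

`genusGe_of_inputs`: for `r ∈ {4, 9}`, `r ∣ M`, `ℓ ∤ M`:  `g(F_M) ≤ g(F_{M,k})`,
from the work packages of `Props.lean` (cusp counts mod `ℓ`, degrees mod `ℓ`, Deuring's inequality at the
base level `r`, and the two abstract lemmas), helper40's Hurwitz bound (inside `hurwitz_core`)
and helper90's genus formula `twelve_genusFF_add`.
-/

noncomputable section

open AlgebraicCurve IntermediateField ModularCurve

namespace Fermat.Agent.GenusEq

open Fermat.Agent.RR Fermat.Agent.RRMod

theorem cuspCount_four : cuspCount 4 = 3 := by decide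

theorem cuspCount_nine : cuspCount 9 = 4 := by decide

theorem dedekindPsi_four : dedekindPsi 4 = 6 := by
  have h := Fermat.Agent.S20.dedekindPsi_prime_pow (p := 2) (k := 1) Nat.prime_two
  norm_num at h
  exact h

theorem dedekindPsi_nine : dedekindPsi 9 = 12 := by
  have h := Fermat.Agent.S20.dedekindPsi_prime_pow (p := 3) (k := 1) Nat.prime_three
  norm_num at h
  exact h

/-- the base levels have genus `0` in characteristic `0`. -/
theorem genusFF_bar_base (r : ℕ) [NeZero r] (hr : r = 4 ∨ r = 9) :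
    genusFF (AlgebraicClosure ℚ) ↥(modularFunctionFieldBar r) = 0 := by
  have h := twelve_genusFF_add r (by rcases hr with rfl | rfl <;> simp)
  rcases hr with rfl | rfl
  · rw [cuspCount_four, dedekindPsi_four] at h
    omega
  · rw [cuspCount_nine, dedekindPsi_nine] at h
    omega

/-- **Genus lower bound in characteristic `ℓ`** at a level `M` divisible by `r ∈ {4, 9}`. -/
theorem genusGe_of_inputs (r M : ℕ) [NeZero r] [NeZero M] (hr : r = 4 ∨ r = 9) (hrM : r ∣ M)
    (hRat : RationalOfGenusZero) (hPF : PoleCountFibres)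
    (hCr : CuspCountModL r) (hCM : CuspCountModL M)
    (hDr : DegreeModL r) (hDM : DegreeModL M)
    (hLe : GenusLe r) : GenusGe M := by
  intro ℓ hℓ hℓM A hA
  have hℓr : ¬ ℓ ∣ r := fun h => hℓM (h.trans hrM)
  haveI : IsAlgClosed (IsLocalRing.ResidueField A) :=
    Fermat.Agent.FrobTrace.isAlgClosed_residueField A
  set k := IsLocalRing.ResidueField A with hk
  have hB := isRRField_fullC' k r
  have hF := isRRField_fullC' k M
  have hgB : genusFF k ↥(modularFunctionFieldFullC k r) = 0 := by
    have h1 := hLe ℓ hℓ hℓr A hA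
    rw [genusFF_bar_base r hr] at h1
    exact Nat.le_zero.mp h1
  let ι : ↥(modularFunctionFieldFullC k r) →ₐ[k] ↥(modularFunctionFieldFullC k M) :=
    IntermediateField.inclusion (full_degeneracyC_le k hrM)
  have hιy : ι (jC k r) = jC k M := rfl
  haveI : FiniteDimensional k⟮ι (jC k r)⟯ ↥(modularFunctionFieldFullC k M) := by
    rw [hιy]; exact finiteDimensional_fullC' k M
  haveI : Algebra.IsSeparable k⟮ι (jC k r)⟯ ↥(modularFunctionFieldFullC k M) := by
    rw [hιy]; exact isSeparable_fullC' k M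
  obtain ⟨n', hdeg, hineq⟩ := hurwitz_core hRat hPF hB hF hgB ι (jC k r) (transcendental_jC k r)
  rw [hιy] at hdeg hineq
  rw [hDr ℓ hℓ hℓr A hA, hDM ℓ hℓ hℓM A hA] at hdeg
  rw [hCr ℓ hℓ hℓr A hA, hCM ℓ hℓ hℓM A hA] at hineq
  have h6e := twelve_genusFF_add M (by
    rcases hr with rfl | rfl
    · exact Or.inl hrM
    · exact Or.inr hrM)
  have h6e' : (12 : ℤ) * (genusFF (AlgebraicClosure ℚ) ↥(modularFunctionFieldBar M) : ℤ) +
      6 * (cuspCount M : ℤ) = 12 + (dedekindPsi M : ℤ) := by exact_mod_cast h6e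
  have hdeg' : (dedekindPsi r : ℤ) * (n' : ℤ) = (dedekindPsi M : ℤ) := by exact_mod_cast hdeg
  have goal : (genusFF (AlgebraicClosure ℚ) ↥(modularFunctionFieldBar M) : ℤ) ≤
      (genusFF k ↥(modularFunctionFieldFullC k M) : ℤ) := by
    rcases hr with rfl | rfl
    · rw [cuspCount_four] at hineq
      rw [dedekindPsi_four] at hdeg'
      push_cast at hineq hdeg'
      linarith
    · rw [cuspCount_nine] at hineq
      rw [dedekindPsi_nine] at hdeg'
      push_cast at hineq hdeg'
      linarith
  exact_mod_cast goal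

/-- **Genus equality** at a level `M` divisible by `r ∈ {4, 9}`, for every prime `ℓ ∤ M`. -/
theorem genusFF_eq_of_inputs (r M : ℕ) [NeZero r] [NeZero M] (hr : r = 4 ∨ r = 9) (hrM : r ∣ M)
    (hRat : RationalOfGenusZero) (hPF : PoleCountFibres)
    (hCr : CuspCountModL r) (hCM : CuspCountModL M)
    (hDr : DegreeModL r) (hDM : DegreeModL M)
    (hLer : GenusLe r) (hLeM : GenusLe M)
    (ℓ : ℕ) (hℓ : ℓ.Prime) (hℓM : ¬ ℓ ∣ M)
    (A : ValuationSubring (AlgebraicClosure ℚ)) (hA : A.LiesOverPrime ℓ) :
    genusFF (AlgebraicClosure ℚ) ↥(modularFunctionFieldBar M) =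
      genusFF (IsLocalRing.ResidueField A)
        ↥(modularFunctionFieldFullC (IsLocalRing.ResidueField A) M) :=
  le_antisymm (genusGe_of_inputs r M hr hrM hRat hPF hCr hCM hDr hDM hLer ℓ hℓ hℓM A hA)
    (hLeM ℓ hℓ hℓM A hA)

end Fermat.Agent.GenusEq
end
end MergeWrap_Lib_GenusEq_Assembly

section MergeWrap_Lib_GenusEq_Rational -- from Lib/GenusEq/Rational.lean

/-!
# GenusEq, WP-B: a function field of genus `0` is rational (helper58)

`rationalOfGenusZero : RationalOfGenusZero` (Prop of `Lib/GenusEq/Props.lean`).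

Proof (pure Lib/RR, no finiteness of `F / k(x)` needed beforehand):
* Riemann's inequality for `D = P`: `ℓ(P) ≥ 2`, so there is `x ∈ L(P)`, `x ∉ k`: simple pole at `P`,
  no other pole; `x` is transcendental since `k` is algebraically closed.
* `L(n P) ⊆ k(x)` by induction on `n` (`dim L((n+1) P) / L(n P) ≤ 1`, and `x^(n+1)` is new).
* for `f ≠ 0` with pole divisor `E` of degree `d`: `L(d P)` and `f L(d P)` are two subspaces of
  dimension `≥ d + 1` of `L(d P + E)`, which has dimension `≤ 2 d + 1`: they meet, `f = u' / u`.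
-/

set_option autoImplicit false

noncomputable section

open AlgebraicCurve IntermediateField

namespace Fermat.Agent.GenusEq

open Fermat.Agent.RR

namespace Rational

variable {k F : Type} [Field k] [Field F] [Algebra k F]

/-- a function with a simple pole at `P` and no other pole. -/
structure IsPar (x : F) (P : Place k F) : Prop where
  ord_pole : P.ord x = -1
  ord_nonneg : ∀ Q : Place k F, Q ≠ P → 0 ≤ Q.ord x

/-- genus `0`: existence of a parameter with pole `P`. -/
theorem exists_isPar (h : IsRRField k F) (hg : genusFF k F = 0) (P : Place k F) :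
    ∃ x : F, IsPar x P ∧ x ∉ Set.range (algebraMap k F) := by
  classical
  set D : Divisor k F := (0 : Divisor k F) + Finsupp.single P 1 with hD
  have hdeg : Divisor.degree D = 1 := by
    rw [hD, degree_add_single h, map_zero, zero_add]
  have hRI := riemann_inequality h D
  rw [hdeg, hg] at hRI
  have hell : 2 ≤ ell D := by
    have : (2 : ℤ) ≤ (ell D : ℤ) := by simpa using hRI
    exact_mod_cast this
  have hnle : ¬ riemannRochSpace D ≤ riemannRochSpace (0 : Divisor k F) := by
    intro hle
    have := finite_riemannRochSpace h (0 : Divisor k F)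
    have h1 := Submodule.finrank_mono hle
    have h2 : ell (0 : Divisor k F) = 1 := ell_zero h
    rw [ell_def] at hell h2
    omega
  obtain ⟨x, hxD, hx0⟩ := SetLike.not_le_iff_exists.mp hnle
  obtain ⟨hxne, hord⟩ := ord_eq_of_mem_add_single_of_not_mem (D := (0 : Divisor k F)) hxD hx0
  refine ⟨x, ⟨by simpa using hord, fun Q hQ => ?_⟩, ?_⟩
  · have := ((mem_riemannRochSpace_iff.mp hxD) Q).resolve_left hxne
    rw [hD, Finsupp.add_apply, Finsupp.single_apply, if_neg (Ne.symm hQ)] at this
    simpa using this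
  · intro hx
    exact hx0 ((mem_riemannRochSpace_zero_iff h x).mpr hx)

/-- over an algebraically closed field, a non-constant element is transcendental. -/
theorem transcendental_of_not_mem_range [IsAlgClosed k] {x : F}
    (hx : x ∉ Set.range (algebraMap k F)) : Transcendental k x := by
  intro halg
  have hint : IsIntegral k x := halg.isIntegral
  have hdeg := IsAlgClosed.degree_eq_one_of_irreducible k (minpoly.irreducible hint)
  exact hx (minpoly.mem_range_of_degree_eq_one k x hdeg)

variable {x : F} {P : Place k F}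

theorem IsPar.ne_zero (hx : IsPar x P) : x ≠ 0 := by
  rintro rfl
  have := hx.ord_pole
  rw [Place.ord_zero] at this
  omega

/-- `x^i ∈ L(n P)` for `i ≤ n`. -/
theorem IsPar.pow_mem (hx : IsPar x P) (n i : ℕ) (hi : i ≤ n) :
    x ^ i ∈ riemannRochSpace (n • Finsupp.single P (1 : ℤ)) := by
  classical
  rw [mem_riemannRochSpace_iff]
  intro v
  right
  rw [← zpow_natCast, v.ord_zpow, Finsupp.smul_apply, nsmul_eq_mul]
  by_cases hv : v = P
  · subst hv
    rw [hx.ord_pole, Finsupp.single_eq_same]
    have : (i : ℤ) ≤ n := by exact_mod_cast hi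
    linarith
  · rw [Finsupp.single_apply, if_neg (Ne.symm hv)]
    have h1 := hx.ord_nonneg v hv
    have h2 : 0 ≤ (i : ℤ) * v.ord x := mul_nonneg (Int.natCast_nonneg i) h1
    simpa using h2

/-- `L(n P) ⊆ k(x)`. -/
theorem IsPar.mem_adjoin (h : IsRRField k F) (hx : IsPar x P) :
    ∀ (n : ℕ) (f : F), f ∈ riemannRochSpace (n • Finsupp.single P (1 : ℤ)) → f ∈ k⟮x⟯ := by
  classical
  intro n
  induction n with
  | zero =>
    intro f hf
    rw [zero_smul, mem_riemannRochSpace_zero_iff h] at hf
    obtain ⟨c, rfl⟩ := hf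
    exact IntermediateField.algebraMap_mem _ c
  | succ n ih =>
    intro f hf
    have hsucc : (n + 1) • Finsupp.single P (1 : ℤ) =
        n • Finsupp.single P (1 : ℤ) + Finsupp.single P 1 := succ_nsmul _ _
    rw [hsucc] at hf
    have hg : x ^ (n + 1) ∈
        riemannRochSpace (n • Finsupp.single P (1 : ℤ) + Finsupp.single P 1) := by
      rw [← hsucc]
      exact hx.pow_mem (n + 1) (n + 1) le_rfl
    have hgD : x ^ (n + 1) ∉ riemannRochSpace (n • Finsupp.single P (1 : ℤ)) := by
      intro hmem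
      have := ((mem_riemannRochSpace_iff.mp hmem) P).resolve_left (pow_ne_zero _ hx.ne_zero)
      rw [← zpow_natCast, P.ord_zpow, hx.ord_pole, Finsupp.smul_apply,
        Finsupp.single_eq_same] at this
      push_cast at this
      simp only [nsmul_eq_mul, mul_one] at this
      omega
    obtain ⟨c, hc⟩ := exists_smul_sub_mem h _ P hf hg hgD
    have h1 := ih _ hc
    have h2 : c • x ^ (n + 1) ∈ k⟮x⟯ := by
      rw [Algebra.smul_def]
      exact mul_mem (IntermediateField.algebraMap_mem _ c)
        (_root_.pow_mem (IntermediateField.mem_adjoin_simple_self k x) _)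
    have h3 : f = (f - c • x ^ (n + 1)) + c • x ^ (n + 1) := by ring
    rw [h3]
    exact add_mem h1 h2

/-- genus `0`: `F = k(x)`. -/
theorem IsPar.adjoin_eq_top (h : IsRRField k F) (hg : genusFF k F = 0) (hx : IsPar x P) :
    k⟮x⟯ = ⊤ := by
  classical
  rw [eq_top_iff]
  intro f _
  by_cases hf : f = 0
  · rw [hf]
    exact zero_mem _
  set E : Divisor k F := poleDiv h f with hE
  have hE0 : 0 ≤ E := poleDiv_nonneg h f
  have hdE : 0 ≤ Divisor.degree E := degree_nonneg_of_nonneg h hE0
  obtain ⟨d, hd⟩ := Int.eq_ofNat_of_zero_le hdE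
  set D : Divisor k F := d • Finsupp.single P (1 : ℤ) with hD
  have hdegD : Divisor.degree D = d := by
    rw [hD, map_nsmul, Divisor.degree_single, h.deg_one]
    simp
  have hAB : riemannRochSpace D ≤ riemannRochSpace (D + E) :=
    riemannRochSpace_mono (le_add_of_nonneg_right hE0)
  let φ : F →ₗ[k] F := LinearMap.mulLeft k f
  have hφ : ∀ u, φ u = f * u := fun u => rfl
  have hφinj : Function.Injective φ := by
    intro a b hab
    rw [hφ, hφ] at hab
    exact mul_left_cancel₀ hf hab
  have hA'B : (riemannRochSpace D).map φ ≤ riemannRochSpace (D + E) := by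
    rintro _ ⟨u, hu, rfl⟩
    rw [hφ]
    have hu' := mem_riemannRochSpace_iff.mp hu
    rw [mem_riemannRochSpace_iff]
    intro v
    by_cases hu0 : u = 0
    · left
      rw [hu0, mul_zero]
    right
    have h1 := (hu' v).resolve_left hu0
    rw [v.ord_mul hf hu0, Finsupp.add_apply, hE, poleDiv_apply]
    have := le_max_left (-(v.ord f)) 0
    omega
  have hfinA : Module.Finite k (riemannRochSpace D) := finite_riemannRochSpace h D
  have hfinB : Module.Finite k (riemannRochSpace (D + E)) := finite_riemannRochSpace h (D + E)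
  have hdimA : d + 1 ≤ Module.finrank k (riemannRochSpace D) := by
    have h1 := riemann_inequality h D
    rw [hdegD, hg, ell_def] at h1
    have h2 : ((d + 1 : ℕ) : ℤ) ≤ (Module.finrank k (riemannRochSpace D) : ℤ) := by
      push_cast
      simpa using h1
    exact_mod_cast h2
  have hdimA' : Module.finrank k ((riemannRochSpace D).map φ) =
      Module.finrank k (riemannRochSpace D) :=
    (Submodule.equivMapOfInjective φ hφinj (riemannRochSpace D)).finrank_eq.symm
  have hdimB : Module.finrank k (riemannRochSpace (D + E)) ≤ 2 * d + 1 := by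
    have h0 : 0 ≤ Divisor.degree (D + E) := by
      rw [map_add, hdegD, hd]
      positivity
    have h1 := ell_le_degree_add_one h h0
    rw [map_add, hdegD, hd, ell_def] at h1
    have h2 : (Module.finrank k (riemannRochSpace (D + E)) : ℤ) ≤ ((2 * d + 1 : ℕ) : ℤ) := by
      push_cast
      linarith
    exact_mod_cast h2
  have hfinA' : Module.Finite k ((riemannRochSpace D).map φ) :=
    Module.Finite.of_injective (Submodule.inclusion hA'B) (Submodule.inclusion_injective _)
  have hsup : Module.finrank k ↥(riemannRochSpace D ⊔ (riemannRochSpace D).map φ) ≤ 2 * d + 1 :=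
    (Submodule.finrank_mono (sup_le hAB hA'B)).trans hdimB
  have hsum := Submodule.finrank_sup_add_finrank_inf_eq (riemannRochSpace D)
    ((riemannRochSpace D).map φ)
  have hinf : 0 < Module.finrank k ↥(riemannRochSpace D ⊓ (riemannRochSpace D).map φ) := by
    omega
  have hne : riemannRochSpace D ⊓ (riemannRochSpace D).map φ ≠ ⊥ := by
    intro hb
    rw [hb, finrank_bot] at hinf
    exact lt_irrefl _ hinf
  obtain ⟨w, hw, hw0⟩ := Submodule.exists_mem_ne_zero_of_ne_bot hne
  obtain ⟨hwA, u, huA, huw⟩ := hw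
  rw [hφ] at huw
  have hu0 : u ≠ 0 := by
    rintro rfl
    apply hw0
    rw [← huw, mul_zero]
  have hfu : f = w / u := by
    rw [eq_div_iff hu0]
    exact huw
  rw [hfu]
  exact div_mem (hx.mem_adjoin h d w hwA) (hx.mem_adjoin h d u huA)

end Rational

/-- (6d) a function field of genus `0` over an algebraically closed field is rational, with a
generator having a simple pole at a prescribed place and no other pole. -/
theorem rationalOfGenusZero : RationalOfGenusZero := by
  intro k F _ _ _ _ h hg P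
  obtain ⟨x, hx, hxk⟩ := Rational.exists_isPar h hg P
  exact ⟨x, Rational.transcendental_of_not_mem_range hxk, hx.ord_pole, hx.ord_nonneg,
    hx.adjoin_eq_top h hg⟩

end Fermat.Agent.GenusEq
end
end MergeWrap_Lib_GenusEq_Rational

section MergeWrap_Lib_GenusEq_Final -- from Lib/GenusEq/Final.lean

set_option autoImplicit false
set_option linter.style.haveILetI false
set_option linter.unusedSectionVars false
set_option synthInstance.maxHeartbeats 400000

/-!
# GenusEq (helper93): genus equality at the auxiliary levels, from the TWO remaining work packages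

`genusFF_eq_of_two`: for `4 ∣ M` or `9 ∣ M`, and every prime `ℓ ∤ M` (INCLUDING `ℓ = 2, 3`),
`genusFF ℚ̄ F_M = genusFF k F_{M,k}`, from
* `PoleCountFibres`   (WP-C, helper90),
* `CuspCountModL 4`, `CuspCountModL 9`, `CuspCountModL M`   (WP-D, helper42; from GoodRed).
Everything else (degrees helper66, Deuring inequality helper80 + helper5, Hurwitz helper40,
genus formula helper90, genus `0` ⇒ rational helper58) is discharged here.
-/

noncomputable section

open AlgebraicCurve IntermediateField ModularCurve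

namespace Fermat.Agent.GenusEq

/-- the base level `r ∈ {4, 9}` of a level divisible by `4` or `9`. -/
theorem exists_base {M : ℕ} (h : 4 ∣ M ∨ 9 ∣ M) : ∃ r : ℕ, (r = 4 ∨ r = 9) ∧ r ∣ M := by
  rcases h with h | h
  · exact ⟨4, Or.inl rfl, h⟩
  · exact ⟨9, Or.inr rfl, h⟩

/-- **Genus equality at the auxiliary levels**, from WP-C and WP-D. -/
theorem genusFF_eq_of_two (hPF : PoleCountFibres)
    (hC : ∀ (L : ℕ) [NeZero L], CuspCountModL L)
    (M : ℕ) [NeZero M] (h : 4 ∣ M ∨ 9 ∣ M)
    (ℓ : ℕ) (hℓ : ℓ.Prime) (hℓM : ¬ ℓ ∣ M)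
    (A : ValuationSubring (AlgebraicClosure ℚ)) (hA : A.LiesOverPrime ℓ) :
    genusFF (AlgebraicClosure ℚ) ↥(modularFunctionFieldBar M) =
      genusFF (IsLocalRing.ResidueField A)
        ↥(modularFunctionFieldFullC (IsLocalRing.ResidueField A) M) := by
  obtain ⟨r, hr, hrM⟩ := exists_base h
  haveI : NeZero r := ⟨by rcases hr with rfl | rfl <;> norm_num⟩
  exact genusFF_eq_of_inputs r M hr hrM rationalOfGenusZero hPF (hC r) (hC M)
    (degreeModL r) (degreeModL M) (genusLe r) (genusLe M) ℓ hℓ hℓM A hA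

end Fermat.Agent.GenusEq
end
end MergeWrap_Lib_GenusEq_Final

section MergeWrap_Lib_GenusEq_PoleFibres -- from Lib/GenusEq/PoleFibres.lean

/-!
# GenusEq WP-C: poles through fibres  (helper90, for helper93)

`poleCountFibres : PoleCountFibres` (the `Prop` of `Lib/GenusEq/Props.lean`).

Setting: `B = k(x) ⊂ F`, `y ∈ B` with a pole at the pole of `x`.  Write `y = N(x) / D(x)` with
`N`, `D` coprime.  At a place `Q` (of `B` or of `F`):
* `ord_Q x < 0`        ⟹ `ord_Q y = (deg N - deg D) ord_Q x`,
* `0 < ord_Q (x - c)`  ⟹ `ord_Q y = (mult_c N - mult_c D) ord_Q (x - c)`,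
so the poles of `y` are the poles of `x` (as `deg D < deg N`) and the zeros of `x - c`, `c` a root
of `D`.  On `B = k(x)` every fibre of `x` has exactly one point.

Generic statements (usable elsewhere): `poleFibres_ord_of_pole`, `poleFibres_ord_of_zero`,
`poleFibres_ord_neg_iff`, `poleFibres_count`, `poleFibres_poleCount_eq_one`,
`poleFibres_zeroCount_eq_one`.
-/

set_option autoImplicit false

noncomputable section

open AlgebraicCurve IntermediateField Polynomial

namespace Fermat.Agent.GenusEq

open Fermat.Agent.RR Fermat.Agent.RRHur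

variable {k E : Type*} [Field k] [Field E] [Algebra k E]

/-- a transcendental element is not a constant. -/
theorem poleFibres_ne_algebraMap {z : E} (hz : Transcendental k z) (c : k) :
    z ≠ algebraMap k E c := by
  rintro rfl
  exact hz (isAlgebraic_algebraMap c)

/-- `w = N(z) / D(z)` is nonzero. -/
theorem poleFibres_ne_zero {z w : E} (hz : Transcendental k z) {N D : k[X]} (hN : N ≠ 0)
    (hw : Polynomial.aeval z D * w = Polynomial.aeval z N) : w ≠ 0 := by
  rintro rfl
  rw [mul_zero] at hw
  exact aeval_ne_zero_of_transcendental hz hN hw.symm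

/-- the order of `w = N(z) / D(z)` at a pole of `z`. -/
theorem poleFibres_ord_of_pole {z w : E} (hz : Transcendental k z) {N D : k[X]} (hN : N ≠ 0)
    (hD : D ≠ 0) (hw : Polynomial.aeval z D * w = Polynomial.aeval z N) (Q : Place k E)
    (hQ : Q.ord z < 0) :
    Q.ord w = ((N.natDegree : ℤ) - D.natDegree) * Q.ord z := by
  have hDz : Polynomial.aeval z D ≠ 0 := aeval_ne_zero_of_transcendental hz hD
  have hw0 : w ≠ 0 := poleFibres_ne_zero hz hN hw
  have h1 := Q.ord_mul hDz hw0
  rw [hw, ord_aeval_of_pole hz Q hQ hN, ord_aeval_of_pole hz Q hQ hD] at h1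
  linarith

/-- the order of `w = N(z) / D(z)` at a zero of `z - c`. -/
theorem poleFibres_ord_of_zero {z w : E} (hz : Transcendental k z) {N D : k[X]} (hN : N ≠ 0)
    (hD : D ≠ 0) (hw : Polynomial.aeval z D * w = Polynomial.aeval z N) (Q : Place k E) {c : k}
    (hQ : 0 < Q.ord (z - algebraMap k E c)) :
    Q.ord w = ((N.rootMultiplicity c : ℤ) - D.rootMultiplicity c) *
      Q.ord (z - algebraMap k E c) := by
  have hDz : Polynomial.aeval z D ≠ 0 := aeval_ne_zero_of_transcendental hz hD
  have hw0 : w ≠ 0 := poleFibres_ne_zero hz hN hw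
  have h1 := Q.ord_mul hDz hw0
  rw [hw, Fermat.Agent.GoodRedSmall.ord_aeval_eq Q hQ hN,
    Fermat.Agent.GoodRedSmall.ord_aeval_eq Q hQ hD] at h1
  linarith

/-- coprime polynomials have no common root. -/
theorem poleFibres_not_isRoot_of_isCoprime {N D : k[X]} (hcop : IsCoprime N D) {c : k}
    (hc : D.IsRoot c) : ¬ N.IsRoot c := by
  intro hNc
  obtain ⟨a, b, hab⟩ := hcop
  have h1 := congrArg (Polynomial.eval c) hab
  rw [Polynomial.eval_add, Polynomial.eval_mul, Polynomial.eval_mul, hNc.eq_zero, hc.eq_zero,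
    mul_zero, mul_zero, add_zero, Polynomial.eval_one] at h1
  exact zero_ne_one h1

/-- **the poles of `w = N(z)/D(z)`** (`N`, `D` coprime, `deg D < deg N`) are the poles of `z` and
the zeros of `z - c`, `c` a root of `D`. -/
theorem poleFibres_ord_neg_iff (hE : IsRRField k E) {z w : E} (hz : Transcendental k z)
    {N D : k[X]} (hcop : IsCoprime N D) (hN : N ≠ 0) (hD : D ≠ 0)
    (hdeg : D.natDegree < N.natDegree)
    (hw : Polynomial.aeval z D * w = Polynomial.aeval z N) (Q : Place k E) :
    Q.ord w < 0 ↔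
      Q.ord z < 0 ∨ ∃ c : k, D.IsRoot c ∧ 0 < Q.ord (z - algebraMap k E c) := by
  constructor
  · intro hQw
    rcases lt_or_ge (Q.ord z) 0 with hneg | hnn
    · exact Or.inl hneg
    · right
      obtain ⟨c, hc | hc⟩ := exists_const_sub hE Q hnn
      · exact absurd hc (poleFibres_ne_algebraMap hz c)
      · refine ⟨c, ?_, hc⟩
        by_contra hroot
        have hm : D.rootMultiplicity c = 0 := Polynomial.rootMultiplicity_eq_zero hroot
        have h1 := poleFibres_ord_of_zero hz hN hD hw Q hc
        rw [hm] at h1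
        have h2 : (0 : ℤ) ≤ (N.rootMultiplicity c : ℤ) := Int.natCast_nonneg _
        have h3 : 0 ≤ Q.ord w := by
          rw [h1]
          simp only [Nat.cast_zero, sub_zero]
          exact mul_nonneg h2 hc.le
        omega
  · rintro (hneg | ⟨c, hc, hQc⟩)
    · rw [poleFibres_ord_of_pole hz hN hD hw Q hneg]
      have h1 : (0 : ℤ) < (N.natDegree : ℤ) - D.natDegree := by
        have : (D.natDegree : ℤ) < N.natDegree := by exact_mod_cast hdeg
        omega
      exact mul_neg_of_pos_of_neg h1 hneg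
    · have hNc : ¬ N.IsRoot c := poleFibres_not_isRoot_of_isCoprime hcop hc
      have hmN : N.rootMultiplicity c = 0 := Polynomial.rootMultiplicity_eq_zero hNc
      have hmD : 0 < D.rootMultiplicity c := (Polynomial.rootMultiplicity_pos hD).mpr hc
      rw [poleFibres_ord_of_zero hz hN hD hw Q hQc, hmN]
      have h1 : ((0 : ℕ) : ℤ) - (D.rootMultiplicity c : ℤ) < 0 := by
        have : (0 : ℤ) < (D.rootMultiplicity c : ℤ) := by exact_mod_cast hmD
        simp only [Nat.cast_zero, zero_sub, Left.neg_neg_iff]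
        exact this
      exact mul_neg_of_neg_of_pos h1 hQc

/-- **counting the poles of `w = N(z)/D(z)`** through the fibres of `z`. -/
theorem poleFibres_count (hE : IsRRField k E) {z w : E} (hz : Transcendental k z)
    {N D : k[X]} (hcop : IsCoprime N D) (hN : N ≠ 0) (hD : D ≠ 0)
    (hdeg : D.natDegree < N.natDegree)
    (hw : Polynomial.aeval z D * w = Polynomial.aeval z N)
    (S : Finset k) (hS : ∀ c, c ∈ S ↔ D.IsRoot c) :
    poleCount k E w =
      poleCount k E z + ∑ c ∈ S, zeroCount k E (z - algebraMap k E c) := by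
  classical
  set P0 : Finset (Place k E) := (finite_poles hE z).toFinset with hP0def
  set Z : k → Finset (Place k E) :=
    fun c => (finite_zeros hE (z - algebraMap k E c)).toFinset with hZdef
  have hmemP0 : ∀ v, v ∈ P0 ↔ v.ord z < 0 := fun v => by
    rw [hP0def, Set.Finite.mem_toFinset, Set.mem_ofPred_eq]
  have hmemZ : ∀ c v, v ∈ Z c ↔ 0 < v.ord (z - algebraMap k E c) := fun c v => by
    rw [hZdef]
    simp only [Set.Finite.mem_toFinset, Set.mem_ofPred_eq]
  have hP0 : poleCount k E z = P0.card := Nat.subtype_card P0 hmemP0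
  have hZ : ∀ c, zeroCount k E (z - algebraMap k E c) = (Z c).card :=
    fun c => Nat.subtype_card (Z c) (hmemZ c)
  have hW : poleCount k E w = (P0 ∪ S.biUnion Z).card :=
    Nat.subtype_card _ fun v => by
      rw [Finset.mem_union, Finset.mem_biUnion, hmemP0,
        poleFibres_ord_neg_iff hE hz hcop hN hD hdeg hw v]
      simp only [hmemZ, hS]
  have hdisj1 : Disjoint P0 (S.biUnion Z) := by
    rw [Finset.disjoint_left]
    intro v hv1 hv2
    rw [hmemP0] at hv1
    rw [Finset.mem_biUnion] at hv2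
    obtain ⟨c, -, hc⟩ := hv2
    rw [hmemZ] at hc
    have := ord_nonneg_of_ord_sub_const_pos v hc
    omega
  have hdisj2 : (S : Set k).PairwiseDisjoint Z := by
    intro c _ c' _ hcc
    rw [Function.onFun, Finset.disjoint_left]
    intro v hv1 hv2
    rw [hmemZ] at hv1 hv2
    have := ord_sub_const_eq_zero v hcc hv1
    omega
  rw [hW, Finset.card_union_of_disjoint hdisj1, Finset.card_biUnion hdisj2, hP0]
  congr 1
  exact Finset.sum_congr rfl fun c _ => (hZ c).symm

/-! ### the rational function field `B = k(x)`: every fibre of `x` has one point -/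

section Rational

variable {B : Type*} [Field B] [Algebra k B]

theorem poleFibres_finiteDimensional_of_top {x : B} (htop : k⟮x⟯ = ⊤) :
    FiniteDimensional k⟮x⟯ B := by
  rw [htop]
  exact Module.finite_of_finrank_pos (by rw [IntermediateField.finrank_top]; exact one_pos)

theorem poleFibres_finrank_of_top {x : B} (htop : k⟮x⟯ = ⊤) :
    Module.finrank k⟮x⟯ B = 1 := by
  rw [htop]
  exact IntermediateField.finrank_top

/-- on `k(x)`, `x` is a coordinate: one pole, simple. -/
theorem poleFibres_exists_isCoord (hB : IsRRField k B) {x : B} (hx : Transcendental k x)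
    (htop : k⟮x⟯ = ⊤) : ∃ Q : Place k B, Fermat.Agent.GoodRedSmall.IsCoord x Q := by
  classical
  have := poleFibres_finiteDimensional_of_top htop
  have h1 : Divisor.degree (poleDiv hB x) = 1 := by
    rw [degree_poleDiv_eq_finrank hB hx, poleFibres_finrank_of_top htop]
    simp
  obtain ⟨Q, hQ⟩ := Fermat.Agent.GoodRedSmall.exists_eq_single_of_degree_eq_one hB
    (poleDiv_nonneg hB x) h1
  refine ⟨Q, ⟨?_, ?_⟩⟩
  · have h2 : poleDiv hB x Q = Finsupp.single Q (1 : ℤ) Q := by rw [hQ]
    rw [poleDiv_apply, Finsupp.single_apply, if_pos rfl] at h2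
    rcases max_cases (-(Q.ord x)) 0 with ⟨h3, _⟩ | ⟨h3, _⟩
    · omega
    · omega
  · intro v hv
    have h2 : poleDiv hB x v = Finsupp.single Q (1 : ℤ) v := by rw [hQ]
    rw [poleDiv_apply, Finsupp.single_apply, if_neg (Ne.symm hv)] at h2
    have h3 := le_max_left (-(v.ord x)) 0
    omega

/-- on `k(x)`, `x` has exactly one pole. -/
theorem poleFibres_poleCount_eq_one (hB : IsRRField k B) {x : B} (hx : Transcendental k x)
    (htop : k⟮x⟯ = ⊤) : poleCount k B x = 1 := by
  classical
  obtain ⟨Q, hQ⟩ := poleFibres_exists_isCoord hB hx htop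
  refine (Nat.subtype_card {Q} fun v => ?_).trans (Finset.card_singleton Q)
  rw [Finset.mem_singleton]
  constructor
  · rintro rfl
    rw [hQ.ord_pole]
    norm_num
  · intro hv
    by_contra hne
    have := hQ.ord_nonneg v hne
    omega

/-- on `k(x)`, `x - c` has exactly one zero. -/
theorem poleFibres_zeroCount_eq_one (hB : IsRRField k B) {x : B} (hx : Transcendental k x)
    (htop : k⟮x⟯ = ⊤) (c : k) : zeroCount k B (x - algebraMap k B c) = 1 := by
  classical
  obtain ⟨Q, hQ⟩ := poleFibres_exists_isCoord hB hx htop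
  obtain ⟨P, -, hP1, -⟩ := (hQ.sub_const c).exists_zero hB
  have hP : 0 < P.ord (x - algebraMap k B c) := by rw [hP1]; norm_num
  refine (Nat.subtype_card {P} fun v => ?_).trans (Finset.card_singleton P)
  rw [Finset.mem_singleton]
  constructor
  · rintro rfl
    exact hP
  · intro hv
    exact (hQ.ord_sub_eq_one hB hP).2 v hv

end Rational

/-- reduction of a fraction to lowest terms. -/
theorem poleFibres_exists_coprime {z w : E} (hz : Transcendental k z) (hw : w ∈ k⟮z⟯) :
    ∃ N D : k[X], D ≠ 0 ∧ IsCoprime N D ∧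
      Polynomial.aeval z D * w = Polynomial.aeval z N := by
  classical
  obtain ⟨N, D, hD, hND⟩ := exists_denominator hz (⟨w, hw⟩ : k⟮z⟯)
  have hg0 : EuclideanDomain.gcd N D ≠ 0 := by
    intro h0
    exact hD (EuclideanDomain.gcd_eq_zero_iff.mp h0).2
  have hab := EuclideanDomain.gcd_eq_gcd_ab N D
  obtain ⟨N', hN'⟩ := EuclideanDomain.gcd_dvd_left N D
  obtain ⟨D', hD'⟩ := EuclideanDomain.gcd_dvd_right N D
  have hD'0 : D' ≠ 0 := by
    rintro rfl
    rw [mul_zero] at hD'
    exact hD hD'
  have hcop : IsCoprime N' D' := by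
    refine ⟨EuclideanDomain.gcdA N D, EuclideanDomain.gcdB N D, ?_⟩
    apply mul_left_cancel₀ hg0
    calc EuclideanDomain.gcd N D *
          (EuclideanDomain.gcdA N D * N' + EuclideanDomain.gcdB N D * D')
        = (EuclideanDomain.gcd N D * N') * EuclideanDomain.gcdA N D +
            (EuclideanDomain.gcd N D * D') * EuclideanDomain.gcdB N D := by ring
      _ = N * EuclideanDomain.gcdA N D + D * EuclideanDomain.gcdB N D := by
          rw [← hN', ← hD']
      _ = EuclideanDomain.gcd N D := hab.symm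
      _ = EuclideanDomain.gcd N D * 1 := (mul_one _).symm
  refine ⟨N', D', hD'0, hcop, ?_⟩
  have hgz : Polynomial.aeval z (EuclideanDomain.gcd N D) ≠ 0 :=
    aeval_ne_zero_of_transcendental hz hg0
  apply mul_left_cancel₀ hgz
  rw [← mul_assoc, ← map_mul, ← hD', ← map_mul, ← hN']
  exact hND

/-- **WP-C, poles through fibres.** -/
theorem poleCountFibres : PoleCountFibres := by
  intro k B F _ _ _ _ _ _ hB hF ι x y hx htop hpole _
  classical
  have hy : y ∈ k⟮x⟯ := by
    rw [htop]
    exact IntermediateField.mem_top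
  obtain ⟨N, D, hD, hcop, hND⟩ := poleFibres_exists_coprime hx hy
  obtain ⟨Q, hQ⟩ := poleFibres_exists_isCoord hB hx htop
  have hQx : Q.ord x < 0 := by
    rw [hQ.ord_pole]
    norm_num
  have hQy := hpole Q hQx
  have hy0 : y ≠ 0 := by
    rintro rfl
    rw [Q.ord_zero] at hQy
    exact lt_irrefl _ hQy
  have hN : N ≠ 0 := by
    rintro rfl
    rw [map_zero] at hND
    rcases mul_eq_zero.mp hND with h | h
    · exact aeval_ne_zero_of_transcendental hx hD h
    · exact hy0 h
  have hdeg : D.natDegree < N.natDegree := by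
    have h1 := poleFibres_ord_of_pole hx hN hD hND Q hQx
    rw [hQ.ord_pole] at h1
    have h2 : (D.natDegree : ℤ) < N.natDegree := by
      rw [h1] at hQy
      linarith
    exact_mod_cast h2
  have hS : ∀ c, c ∈ D.roots.toFinset ↔ D.IsRoot c := fun c => by
    rw [Multiset.mem_toFinset, Polynomial.mem_roots hD]
  refine ⟨D.roots.toFinset, ?_, ?_⟩
  · rw [poleFibres_count hB hx hcop hN hD hdeg hND _ hS, poleFibres_poleCount_eq_one hB hx htop,
      Finset.sum_congr rfl fun c _ => poleFibres_zeroCount_eq_one hB hx htop c]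
    simp only [Finset.sum_const, smul_eq_mul, mul_one]
    exact add_comm _ _
  · have hιx : Transcendental k (ι x) := fun h =>
      hx ((isAlgebraic_algHom_iff ι ι.toRingHom.injective).mp h)
    have hιND : Polynomial.aeval (ι x) D * ι y = Polynomial.aeval (ι x) N := by
      rw [Polynomial.aeval_algHom_apply, Polynomial.aeval_algHom_apply, ← map_mul, hND]
    rw [poleFibres_count hF hιx hcop hN hD hdeg hιND _ hS]
    exact add_comm _ _

end Fermat.Agent.GenusEq
end
end MergeWrap_Lib_GenusEq_PoleFibres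

section MergeWrap_Lib_GenusEq_FinalOne -- from Lib/GenusEq/FinalOne.lean

set_option autoImplicit false
set_option linter.style.haveILetI false
set_option linter.unusedSectionVars false
set_option synthInstance.maxHeartbeats 400000

/-!
# GenusEq (helper93): genus equality at the auxiliary levels, from the ONE remaining work package

`genusFF_eq_of_cusp`: for `4 ∣ M` or `9 ∣ M`, and every prime `ℓ ∤ M` (INCLUDING `ℓ = 2, 3`),
`genusFF ℚ̄ F_M = genusFF k F_{M,k}`, from `CuspCountModL` (WP-D) alone.
-/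

noncomputable section

open AlgebraicCurve IntermediateField ModularCurve

namespace Fermat.Agent.GenusEq

/-- **Genus equality at the auxiliary levels**, from the cusp counts mod `ℓ` at the levels
`r ∈ {4, 9}` and `M`. -/
theorem genusFF_eq_of_cusp (r M : ℕ) [NeZero r] [NeZero M] (hr : r = 4 ∨ r = 9) (hrM : r ∣ M)
    (hCr : CuspCountModL r) (hCM : CuspCountModL M)
    (ℓ : ℕ) (hℓ : ℓ.Prime) (hℓM : ¬ ℓ ∣ M)
    (A : ValuationSubring (AlgebraicClosure ℚ)) (hA : A.LiesOverPrime ℓ) :
    genusFF (AlgebraicClosure ℚ) ↥(modularFunctionFieldBar M) =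
      genusFF (IsLocalRing.ResidueField A)
        ↥(modularFunctionFieldFullC (IsLocalRing.ResidueField A) M) :=
  genusFF_eq_of_inputs r M hr hrM rationalOfGenusZero poleCountFibres hCr hCM
    (degreeModL r) (degreeModL M) (genusLe r) (genusLe M) ℓ hℓ hℓM A hA

end Fermat.Agent.GenusEq
end
end MergeWrap_Lib_GenusEq_FinalOne

section MergeWrap_Lib_GenusEq_CharZero -- from Lib/GenusEq/CharZero.lean

set_option autoImplicit false

/-!
# GenusEq WP-A: the characteristic-`0` inputs

* `cuspCountBar M : CuspCountBar M`: the places of `F_M` over `j = ∞` are counted by the cusps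
  of `Γ₀(M)`;
* `unramBar M : UnramBar M`: `[F_M : ℚ̄(j)] = ψ(M)` and every fibre of `j` over
  `c ∉ {0, 1728}` has `ψ(M)` places.

Both are repackagings of `GoodRedBranch.fibre_package` (helper19, from the S24 Galois datum) with
the coset combinatorics of S20/S24 (`index_Gamma0`, `orbCount_T`).
-/

noncomputable section

open AlgebraicCurve IntermediateField ModularCurve

namespace Fermat.Agent.GenusEq

/-- (A1) the poles of `j` on `F_M` are counted by the cusps of `Γ₀(M)`. -/
theorem cuspCountBar (M : ℕ) [NeZero M] : CuspCountBar M := by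
  unfold CuspCountBar poleCount
  rw [← Fermat.Agent.S24.orbCount_T M]
  exact Fermat.Agent.GoodRedBranch.card_poles_jBar M

/-- (A2) `[F_M : ℚ̄(j)] = ψ(M)`, and `j` is unramified outside `0, 1728, ∞`. -/
theorem unramBar (M : ℕ) [NeZero M] : UnramBar M := by
  unfold UnramBar zeroCount
  refine ⟨?_, fun c hc0 hc => ?_⟩
  · rw [← Fermat.Agent.S24.index_Gamma0 M]
    exact Fermat.Agent.GoodRedBranch.finrank_jBar M
  · rw [← Fermat.Agent.S24.index_Gamma0 M]
    exact (Fermat.Agent.GoodRedBranch.fibre_package M).2.1 c hc0 hc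

/-- every place over `c ∉ {0, 1728}` is unramified (`ord_v (j - c) = 1`); re-export. -/
theorem ord_jBar_sub_eq_one_of_pos (M : ℕ) [NeZero M] {c : AlgebraicClosure ℚ}
    (hc0 : c ≠ 0) (hc : c ≠ 1728)
    (v : Place (AlgebraicClosure ℚ) ↥(modularFunctionFieldBar M))
    (hv : 0 < v.ord (Fermat.Agent.S24.jBar M - algebraMap (AlgebraicClosure ℚ) _ c)) :
    v.ord (Fermat.Agent.S24.jBar M - algebraMap (AlgebraicClosure ℚ) _ c) = 1 :=
  Fermat.Agent.GoodRedBranch.ord_jBar_sub_eq_one M hc0 hc v hv

end Fermat.Agent.GenusEq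
end
end MergeWrap_Lib_GenusEq_CharZero

section MergeWrap_Lib_GenusEq_CuspModL -- from Lib/GenusEq/CuspModL.lean

set_option autoImplicit false
set_option linter.unusedSectionVars false
set_option linter.style.haveILetI false

noncomputable section

open AlgebraicCurve IntermediateField ModularCurve

namespace Fermat.Agent.GenusEq

open Fermat.Agent.GoodRed

section Abstract

variable {K k F Fk : Type} [Field K] [Field k] [Field F] [Field Fk] [Algebra K F] [Algebra k Fk]

/-- the branch values of the chart `x⁻¹` lying in `A`: `0`, and `u⁻¹` if it lies in `A`. -/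
def cmlSet (A : ValuationSubring K) (u : K) : Finset K :=
  open Classical in if u⁻¹ ∈ A then {0, u⁻¹} else {0}

theorem mem_cmlSet {A : ValuationSubring K} {u c : K} :
    c ∈ cmlSet A u ↔ c = 0 ∨ (c = u⁻¹ ∧ u⁻¹ ∈ A) := by
  classical
  unfold cmlSet
  by_cases h : u⁻¹ ∈ A
  · rw [if_pos h]
    simp [h]
  · rw [if_neg h]
    simp [h]

theorem cml_res_zero (M : RedModel K k F Fk) (h : (0 : K) ∈ M.A) : M.res ⟨0, h⟩ = 0 := by
  have e : (⟨0, h⟩ : M.A) = 0 := rfl
  rw [e, map_zero]

theorem cml_res_ne_zero (M : RedModel K k F Fk) {u : K} (hu : u ∈ M.A) (hu0 : u ≠ 0)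
    (h : u⁻¹ ∈ M.A) : M.res ⟨u⁻¹, h⟩ ≠ 0 := by
  intro h0
  have h1 : (⟨u⁻¹, h⟩ : M.A) * ⟨u, hu⟩ = 1 := by
    apply Subtype.ext
    show u⁻¹ * u = 1
    exact inv_mul_cancel₀ hu0
  have h2 := congrArg M.res h1
  rw [map_mul, h0, zero_mul, map_one] at h2
  exact zero_ne_one h2

/-- the WEAK branch datum of the chart `x⁻¹`, for `x` unramified outside `0`, `u`, `∞`. -/
def cmlBranch (M : RedModel K k F Fk) (n : ℕ) (u : K) (hu : u ∈ M.A) (hu0 : u ≠ 0)
    (hunram : ∀ c : K, c ≠ 0 → c ≠ u → fibreCard K M.x c = n) : BranchDataA M.inv n where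
  S := cmlSet M.A u
  S_mem := by
    intro c hc
    rcases mem_cmlSet.mp hc with h | ⟨h, h'⟩
    · rw [h]
      exact zero_mem _
    · rw [h]
      exact h'
  S_inj := by
    show ∀ c ∈ cmlSet M.A u, ∀ c' ∈ cmlSet M.A u, ∀ (hc : c ∈ M.A) (hc' : c' ∈ M.A),
      M.res ⟨c, hc⟩ = M.res ⟨c', hc'⟩ → c = c'
    intro c hc c' hc' hcA hcA' hres
    rcases mem_cmlSet.mp hc with h | ⟨h, -⟩ <;> rcases mem_cmlSet.mp hc' with h' | ⟨h', -⟩
    · rw [h, h']
    · exfalso
      subst h h'
      exact cml_res_ne_zero M hu hu0 hcA' (hres.symm.trans (cml_res_zero M hcA))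
    · exfalso
      subst h h'
      exact cml_res_ne_zero M hu hu0 hcA (hres.trans (cml_res_zero M hcA'))
    · rw [h, h']
  unram := by
    show ∀ c : K, c ∈ M.A → c ∉ cmlSet M.A u → fibreCard K M.x⁻¹ c = n
    intro c hcA hc
    have h0 : c ≠ 0 := fun h => hc (mem_cmlSet.mpr (Or.inl h))
    have h1 : c⁻¹ ≠ u := by
      intro h
      have e : c = u⁻¹ := by rw [← h, inv_inv]
      apply hc
      refine mem_cmlSet.mpr (Or.inr ⟨e, ?_⟩)
      rw [← e]
      exact hcA
    have h2 := fibreCard_inv (K := K) M.x c⁻¹ (inv_ne_zero h0)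
    rw [inv_inv] at h2
    rw [h2]
    exact hunram c⁻¹ (inv_ne_zero h0) h1

theorem zero_mem_cmlBranch (M : RedModel K k F Fk) (n : ℕ) (u : K) (hu : u ∈ M.A) (hu0 : u ≠ 0)
    (hunram : ∀ c : K, c ≠ 0 → c ≠ u → fibreCard K M.x c = n) :
    (0 : K) ∈ (cmlBranch M n u hu hu0 hunram).S :=
  mem_cmlSet.mpr (Or.inl rfl)

/-- **equality of the fibres at infinity**: the reduced curve has as many points over
`x̄ = ∞` as the curve has over `x = ∞`. -/
theorem fibreCard_inv_zero_eq [IsAlgClosed K] [CharZero K] [IsAlgClosed k]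
    (M : RedModel K k F Fk) (n : ℕ) (hdeg : DegData M n) (u : K) (hu : u ∈ M.A) (hu0 : u ≠ 0)
    (hunram : ∀ c : K, c ≠ 0 → c ≠ u → fibreCard K M.x c = n) :
    fibreCard k M.xbar⁻¹ 0 = fibreCard K M.x⁻¹ 0 := by
  have h := fibreEq_of_branchData M.inv n hdeg.inv (cmlBranch M n u hu hu0 hunram) 0
    (zero_mem _) (Or.inl (zero_mem_cmlBranch M n u hu hu0 hunram))
  have h2 : M.inv.res ⟨0, zero_mem _⟩ = 0 := cml_res_zero M.inv _
  rw [h2, M.inv_xbar] at h
  exact h

/-- **the number of poles of the base parameter does not change under reduction.** -/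
theorem poleCount_xbar_eq [IsAlgClosed K] [CharZero K] [IsAlgClosed k]
    (M : RedModel K k F Fk) (n : ℕ) (hdeg : DegData M n) (u : K) (hu : u ∈ M.A) (hu0 : u ≠ 0)
    (hunram : ∀ c : K, c ≠ 0 → c ≠ u → fibreCard K M.x c = n) :
    poleCount k Fk M.xbar = poleCount K F M.x := by
  have hx := M.x_transcendental
  have hxk : Transcendental k M.xbar := M.x_trans
  haveI : FiniteDimensional K⟮M.x⟯ F :=
    Module.finite_of_finrank_pos (by rw [hdeg.deg]; exact hdeg.pos)
  haveI : FiniteDimensional k⟮M.xbar⟯ Fk :=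
    Module.finite_of_finrank_pos (by rw [hdeg.degk]; exact hdeg.pos)
  haveI : Algebra.IsSeparable k⟮M.xbar⟯ Fk := hdeg.sepk
  haveI : Algebra.IsSeparable K⟮M.x⟯ F := Algebra.IsSeparable.of_integral _ _
  unfold poleCount
  rw [← fibreCard_inv_eq_card_poles hx, ← fibreCard_inv_eq_card_poles hxk]
  exact fibreCard_inv_zero_eq M n hdeg u hu hu0 hunram

end Abstract

section Modular

variable (N : ℕ) [NeZero N] {ℓ : ℕ} (hℓ : ℓ.Prime)
  {A : ValuationSubring (AlgebraicClosure ℚ)} (hA : A.LiesOverPrime ℓ) (hℓN : ¬ ℓ ∣ N)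

set_option synthInstance.maxHeartbeats 400000 in
set_option maxHeartbeats 1000000 in
/-- the reduced base parameter of the modular reduction model is `j̄`. -/
theorem cml_xbar :
    (modularRedModelOf N hℓ hA hℓN).xbar
      = Fermat.Agent.RRMod.jC (IsLocalRing.ResidueField A) N :=
  Subtype.ext (coe_modularRedModel_xbar N hℓ hA (rangeAt N hℓ hA hℓN))

set_option synthInstance.maxHeartbeats 400000 in
set_option maxHeartbeats 1000000 in
/-- DEGREE data of the modular reduction model, unconditionally for `ℓ ∤ N`. -/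
theorem cml_degData :
    DegData (modularRedModelOf N hℓ hA hℓN) (CongruenceSubgroup.Gamma0 N).index := by
  haveI : IsAlgClosed (IsLocalRing.ResidueField A) :=
    Fermat.Agent.FrobTrace.isAlgClosed_residueField A
  haveI : Fact ℓ.Prime := ⟨hℓ⟩
  refine degData_modularRedModel N hℓ hA (rangeAt N hℓ hA hℓN) ?_ ?_
  · rw [Fermat.Agent.GaussVal.finrank_fullC_eq_finrank_fullL A ℓ N hA hℓN _
      (coe_modularRedModel_xbar N hℓ hA (rangeAt N hℓ hA hℓN)) (Fermat.Agent.S24.jBar N)
      (Fermat.Agent.S24.coe_jBar_eq_jqModC N)]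
    exact Fermat.Agent.GoodRedBranch.finrank_jBar N
  · have h := Fermat.Agent.RRMod.isSeparable_fullC' (IsLocalRing.ResidueField A) N
    have e := cml_xbar N hℓ hA hℓN
    unfold modularRedModelOf at e
    rw [e]
    exact h

theorem cml_1728_mem (A : ValuationSubring (AlgebraicClosure ℚ)) :
    (1728 : AlgebraicClosure ℚ) ∈ A := by
  have h := (((1728 : ℕ) : A)).2
  have e : ((((1728 : ℕ) : A)) : AlgebraicClosure ℚ) = 1728 := by
    show ((1728 : ℕ) : AlgebraicClosure ℚ) = 1728
    norm_num
  rw [e] at h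
  exact h

set_option synthInstance.maxHeartbeats 400000 in
set_option maxHeartbeats 1000000 in
/-- **WP-D, comparison**: `j̄` has as many poles on `F_{N,k}` as `j` has on `F_N`,
for every prime `ℓ ∤ N` and every place `A` over `ℓ`. -/
theorem poleCount_jC_eq (N : ℕ) [NeZero N] {ℓ : ℕ} (hℓ : ℓ.Prime)
    {A : ValuationSubring (AlgebraicClosure ℚ)} (hA : A.LiesOverPrime ℓ) (hℓN : ¬ ℓ ∣ N) :
    poleCount (IsLocalRing.ResidueField A)
        ↥(modularFunctionFieldFullC (IsLocalRing.ResidueField A) N)
        (Fermat.Agent.RRMod.jC (IsLocalRing.ResidueField A) N)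
      = poleCount (AlgebraicClosure ℚ) ↥(modularFunctionFieldBar N)
          (Fermat.Agent.S24.jBar N) := by
  haveI : IsAlgClosed (IsLocalRing.ResidueField A) :=
    Fermat.Agent.FrobTrace.isAlgClosed_residueField A
  have h := poleCount_xbar_eq (modularRedModelOf N hℓ hA hℓN)
    (CongruenceSubgroup.Gamma0 N).index (cml_degData N hℓ hA hℓN) 1728 (cml_1728_mem A)
    (by norm_num)
    (fun c hc0 hc => fibreCard_jBar_of_not_mem N (fun hmem =>
      (mem_branchSet.mp hmem).elim hc0 hc))
  rw [cml_xbar] at h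
  exact h

/-- **WP-D**: the number of places of `F_{M,k}` over `j̄ = ∞` is the number of cusps of `Γ₀(M)`,
given the count in characteristic `0` (WP-A). -/
theorem cuspCountModL_of_bar (M : ℕ) [NeZero M] (h : CuspCountBar M) : CuspCountModL M := by
  intro ℓ hℓ hℓM A hA
  rw [poleCount_jC_eq M hℓ hA hℓM]
  exact h

/-- **WP-D, unconditional**: for every prime `ℓ ∤ M` and every place `A` over `ℓ`, the number of
places of `F_{M,k}` over `j̄ = ∞` is the number of cusps of `Γ₀(M)`. -/
theorem cuspCountModL (M : ℕ) [NeZero M] : CuspCountModL M :=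
  cuspCountModL_of_bar M (cuspCountBar M)

end Modular

end Fermat.Agent.GenusEq
end
end MergeWrap_Lib_GenusEq_CuspModL

section MergeWrap_Lib_GenusEq_Main -- from Lib/GenusEq/Main.lean

set_option autoImplicit false
set_option linter.style.haveILetI false
set_option linter.unusedSectionVars false
set_option synthInstance.maxHeartbeats 400000

/-!
# GenusEq (helper93): GENUS EQUALITY at the auxiliary levels, UNCONDITIONAL

For every level `M` divisible by `4` or by `9`, every prime `ℓ ∤ M` (INCLUDING `ℓ = 2` and `ℓ = 3`)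
and every valuation ring `A` of `ℚ̄` over `ℓ`, with residue field `k`:

  `genusFF ℚ̄ (modularFunctionFieldBar M) = genusFF k (modularFunctionFieldFullC k M)`.

Pieces: WP-A helper20, WP-B helper58, WP-C helper90, WP-D helper42 + helper37 (GoodRed discriminant
chain, chart `1/j`), WP-E helper93; degrees helper66, Deuring inequality helper80 + helper5,
Hurwitz bound helper40 et al., genus formula helper90 (from S24).
-/

noncomputable section

open AlgebraicCurve IntermediateField ModularCurve

namespace Fermat.Agent.GenusEq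

/-- **Genus equality** at a level `M` divisible by `r ∈ {4, 9}`. -/
theorem genusFF_eq_base (r M : ℕ) [NeZero r] [NeZero M] (hr : r = 4 ∨ r = 9) (hrM : r ∣ M)
    (ℓ : ℕ) (hℓ : ℓ.Prime) (hℓM : ¬ ℓ ∣ M)
    (A : ValuationSubring (AlgebraicClosure ℚ)) (hA : A.LiesOverPrime ℓ) :
    genusFF (AlgebraicClosure ℚ) ↥(modularFunctionFieldBar M) =
      genusFF (IsLocalRing.ResidueField A)
        ↥(modularFunctionFieldFullC (IsLocalRing.ResidueField A) M) :=
  genusFF_eq_of_cusp r M hr hrM (cuspCountModL r) (cuspCountModL M) ℓ hℓ hℓM A hA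

/-- **Genus equality** at a level `M` divisible by `4` or by `9`, for every prime `ℓ ∤ M`. -/
theorem genusFF_eq (M : ℕ) [NeZero M] (h : 4 ∣ M ∨ 9 ∣ M)
    (ℓ : ℕ) (hℓ : ℓ.Prime) (hℓM : ¬ ℓ ∣ M)
    (A : ValuationSubring (AlgebraicClosure ℚ)) (hA : A.LiesOverPrime ℓ) :
    genusFF (AlgebraicClosure ℚ) ↥(modularFunctionFieldBar M) =
      genusFF (IsLocalRing.ResidueField A)
        ↥(modularFunctionFieldFullC (IsLocalRing.ResidueField A) M) := by
  obtain ⟨r, hr, hrM⟩ := exists_base h
  haveI : NeZero r := ⟨by rcases hr with rfl | rfl <;> norm_num⟩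
  exact genusFF_eq_base r M hr hrM ℓ hℓ hℓM A hA

/-- the lower bound in the shape of `Props.lean`. -/
theorem genusGe (M : ℕ) [NeZero M] (h : 4 ∣ M ∨ 9 ∣ M) : GenusGe M :=
  fun ℓ hℓ hℓM A hA => (genusFF_eq M h ℓ hℓ hℓM A hA).le

end Fermat.Agent.GenusEq
end
end MergeWrap_Lib_GenusEq_Main
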